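/-
S44 / F / Dim (sub-architect helper102).  Block (DIM) of `FDualA`: a vector orthogonal to the principal
parts of `L(m ∞)` is the beginning of the `q`-expansion of a cusp form of weight two.   Definitions.
-/
import Fermat.Agent.S44.F.Dual.Defs

set_option autoImplicit false

noncomputable section

namespace Fermat.Agent.S44.F

open ModularCurve AlgebraicCurve Fermat.Agent.S24

/-- the principal part at the cusp `∞`: the coefficients of `q^(-1), …, q^(-m)` -/
def PP (M m : ℕ) : FN M →ₗ[Kbar] (Fin m → Kbar) where
  toFun b i := (b : LaurentSeries Kbar).coeff (-((i : ℤ) + 1))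
  map_add' _ _ := rfl
  map_smul' c b := by
    funext i
    show ((c • b : FN M) : LaurentSeries Kbar).coeff _ = c * _
    rw [IntermediateField.coe_smul, Algebra.smul_def, algebraMap_laurentSeries_eq_single,
      HahnSeries.coeff_single_mul, sub_zero]

@[simp] theorem PP_apply (M m : ℕ) (b : FN M) (i : Fin m) :
    PP M m b i = (b : LaurentSeries Kbar).coeff (-((i : ℤ) + 1)) := rfl

end Fermat.Agent.S44.F

end
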