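/-
S44, block F, node DGenus (helper104): `genusFF ℚ̄ (FN M) = dim S₂(Γ₀(M))`.
Count: `#W M 2 = 2 ^ (2 g)` (S27), `W M 2 ≃ Hom_{par,ell}(Γ₀(M), ℤ/2)` (multiplier isomorphism of GAL),
`#Hom_{par,ell}(Γ₀(M), ℤ/2) = 2 ^ (2 dim S₂)` (S16).
-/
import Fermat.Agent.GAL.Mult.Statement
import Fermat.Agent.GAL.Genus.Kummer

set_option autoImplicit false

namespace Fermat.Agent.S44.F.Dim

open AlgebraicCurve CongruenceSubgroup Module
open Fermat.Agent.S24 Fermat.Agent.GAL Fermat.Agent.S16.Lift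

theorem genusFF_eq_finrank (M : ℕ) [NeZero M] :
    genusFF Kbar (FN M) = finrank ℂ (CuspForm (Gamma0 M) 2) := by
  obtain ⟨mult, -⟩ := Mult.exists_multEquiv M 2 two_pos
  have h1 := Genus.card_W M 2 two_pos
  rw [Nat.card_congr mult.toEquiv, card_homPE M 2 two_pos] at h1
  have h2 := Nat.pow_right_injective (le_refl 2) h1
  omega

theorem genusFF_le_finrank (M : ℕ) [NeZero M] :
    genusFF Kbar (FN M) ≤ finrank ℂ (CuspForm (Gamma0 M) 2) :=
  (genusFF_eq_finrank M).le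

end Fermat.Agent.S44.F.Dim
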