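/-
S44 / F / Dim (sub-architect helper102), leaf LA (task 3032, owner helper169): orthogonal complement
and extension of scalars.  Mathlib only.
-/
import Mathlib

set_option autoImplicit false

namespace Fermat.Agent.S44.F

open Module

theorem perp_mem {K L σ : Type*} [Field K] [Field L] [Fintype σ] (ι : K →+* L)
    (P : Submodule K (σ → K)) (U : Submodule L (σ → L))
    (hPU : ∀ x ∈ P, ∀ u ∈ U, ∑ i, ι (x i) * u i = 0)
    (hdim : Fintype.card σ ≤ finrank K P + finrank L U)
    (y : σ → K) (hy : ∀ x ∈ P, ∑ i, x i * y i = 0) : (fun i => ι (y i)) ∈ U := by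
  classical
  obtain ⟨r, hr⟩ : ∃ r, r = finrank K P := ⟨_, rfl⟩
  rw [← hr] at hdim
  let b : Basis (Fin r) K P := (Module.finBasis K P).reindex (finCongr hr.symm)
  let B : Matrix (Fin r) σ K := fun k i => (b k : σ → K) i
  -- a left inverse of the inclusion of `P`
  let β : (Fin r → K) →ₗ[K] (σ → K) := P.subtype ∘ₗ b.equivFun.symm.toLinearMap
  have hβ : Function.Injective β := P.injective_subtype.comp b.equivFun.symm.injective
  obtain ⟨g, hg⟩ := β.exists_leftInverse_of_injective (LinearMap.ker_eq_bot.2 hβ)
  let C : Matrix (Fin r) σ K := LinearMap.toMatrix' g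
  have hβB : LinearMap.toMatrix' β = B.transpose := by
    ext i k
    rw [LinearMap.toMatrix'_apply]
    simp [β, B, Basis.equivFun_symm_apply]
  have hCB : C * B.transpose = 1 := by
    rw [← hβB, ← LinearMap.toMatrix'_comp, hg, LinearMap.toMatrix'_id]
  have hBC : B * C.transpose = 1 := by
    have := congrArg Matrix.transpose hCB
    rwa [Matrix.transpose_mul, Matrix.transpose_transpose, Matrix.transpose_one] at this
  have hBC' : (B.map ι) * (C.transpose.map ι) = 1 := by
    rw [← Matrix.map_mul, hBC, Matrix.map_one _ (map_zero ι) (map_one ι)]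
  let T : (σ → L) →ₗ[L] (Fin r → L) := (B.map ι).mulVecLin
  have hTsurj : Function.Surjective T := fun e => ⟨(C.transpose.map ι).mulVec e, by
    show (B.map ι).mulVec ((C.transpose.map ι).mulVec e) = e
    rw [Matrix.mulVec_mulVec, hBC', Matrix.one_mulVec]⟩
  have hTapply : ∀ w k, T w k = ∑ i, ι ((b k : σ → K) i) * w i := fun w k => rfl
  have hUT : U ≤ LinearMap.ker T := by
    intro u hu
    rw [LinearMap.mem_ker]
    ext k
    rw [hTapply]
    exact hPU _ (b k).2 u hu
  have hker : finrank L (LinearMap.ker T) ≤ finrank L U := by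
    have h1 := LinearMap.finrank_range_add_finrank_ker T
    rw [LinearMap.range_eq_top.2 hTsurj, finrank_top, Module.finrank_fin_fun,
      Module.finrank_fintype_fun_eq_card] at h1
    omega
  rw [Submodule.eq_of_le_of_finrank_le hUT hker, LinearMap.mem_ker]
  ext k
  rw [hTapply]
  have h2 := congrArg ι (hy _ (b k).2)
  rw [map_sum, map_zero] at h2
  simpa only [map_mul, Pi.zero_apply] using h2

end Fermat.Agent.S44.F
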