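/-
S44 / F / Dim (sub-architect helper102), leaf R: the principal parts of `L(m ∞)` span a space of
dimension at least `m - g` (Riemann's inequality and `L(0) = ` constants).
-/
import Fermat.Agent.S44.F.Dim.Defs
import Fermat.Agent.S27.Riemann
import Fermat.Agent.GAL.GenusBridge.Orders

set_option autoImplicit false

noncomputable section

namespace Fermat.Agent.S44.F

open ModularCurve AlgebraicCurve Fermat.Agent.S24 Fermat.Agent.S24.B Fermat.Agent.S24.FF
  Fermat.Agent.S27.Riemann Fermat.Agent.GAL Fermat.Agent.GAL.GenusBridge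
open Module

/-- an element of `L(m ∞)` without principal part is in `L(0)` -/
theorem Rank_mem_L_zero (M : ℕ) [NeZero M] (m : ℕ) (b : FN M) (hb : b ∈ Linf M m)
    (hPP : PP M m b = 0) : b ∈ riemannRochSpace (0 : Divisor Kbar (FN M)) := by
  classical
  rw [mem_riemannRochSpace_iff] at hb ⊢
  intro v
  by_cases hb0 : b = 0
  · exact Or.inl hb0
  right
  have hv := (hb v).resolve_left hb0
  by_cases hvc : v = S17.W.cusp M
  · subst hvc
    rw [Finsupp.single_eq_same, S17.W.ord_cusp M b hb0] at hv
    rw [S17.W.ord_cusp M b hb0]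
    simp only [Finsupp.coe_zero, Pi.zero_apply, neg_zero]
    by_contra hlt
    push Not at hlt
    have hb' : (b : LaurentSeries Kbar) ≠ 0 := fun h => hb0 (Subtype.ext h)
    have hc : (b : LaurentSeries Kbar).coeff (b : LaurentSeries Kbar).order ≠ 0 :=
      fun h => hb' (HahnSeries.coeff_order_eq_zero.mp h)
    apply hc
    obtain ⟨k, hk⟩ : ∃ k : ℕ, (b : LaurentSeries Kbar).order = -((k : ℤ) + 1) :=
      ⟨(-(b : LaurentSeries Kbar).order - 1).toNat, by omega⟩
    have hkm : k < m := by omega
    have := congrFun hPP ⟨k, hkm⟩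
    rw [PP_apply] at this
    rw [hk]
    exact this
  · rw [Finsupp.single_eq_of_ne hvc] at hv
    simpa using hv

theorem finrank_map_PP_ge (M : ℕ) [NeZero M] (m : ℕ) :
    (m : ℤ) - genusFF Kbar (FN M) ≤ finrank Kbar ((Linf M m).map (PP M m)) := by
  have hF : ∃ x : FN M, Transcendental Kbar x := ⟨jF M, Formal.transcendental_jF M⟩
  have hR : (m : ℤ) + 1 - genusFF Kbar (FN M) ≤ finrank Kbar (Linf M m) := by
    have hR := riemann_inequality hF (Finsupp.single (S17.W.cusp M) (m : ℤ))
    rw [degree_single_eq] at hR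
    exact hR
  have hfin : Module.Finite Kbar (Linf M m) := finite_L hF _
  set φ : (Linf M m) →ₗ[Kbar] (Fin m → Kbar) := (PP M m).domRestrict (Linf M m) with hφ
  have hrn := LinearMap.finrank_range_add_finrank_ker φ
  have hrange : LinearMap.range φ = (Linf M m).map (PP M m) := LinearMap.range_domRestrict _ _
  have hker : finrank Kbar (LinearMap.ker φ) ≤ 1 := by
    rw [← finrank_L_zero (K := Kbar) (F := FN M)]
    have hfin0 : Module.Finite Kbar (riemannRochSpace (0 : Divisor Kbar (FN M))) := finite_L hF _
    let ψ : LinearMap.ker φ →ₗ[Kbar] riemannRochSpace (0 : Divisor Kbar (FN M)) :=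
      LinearMap.codRestrict _ ((Linf M m).subtype.comp (LinearMap.ker φ).subtype) (by
        intro x
        exact Rank_mem_L_zero M m _ x.1.2 x.2)
    refine LinearMap.finrank_le_finrank_of_injective (f := ψ) ?_
    intro x y hxy
    have := congrArg Subtype.val hxy
    exact Subtype.ext (Subtype.ext this)
  rw [hrange] at hrn
  have : (finrank Kbar (Linf M m) : ℤ) =
      finrank Kbar ((Linf M m).map (PP M m)) + finrank Kbar (LinearMap.ker φ) := by
    exact_mod_cast hrn.symm
  have hker' : (finrank Kbar (LinearMap.ker φ) : ℤ) ≤ 1 := by exact_mod_cast hker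
  omega

end Fermat.Agent.S44.F

end
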