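/-
S44 / F / Dim (sub-architect helper102), leaf T: the truncated `q`-expansion of weight two cusp forms
is injective for a large truncation level.
-/
import Fermat.Agent.S44.F.Stab
import Fermat.Agent.S49.Basic

set_option autoImplicit false

noncomputable section

namespace Fermat.Agent.S44.F

open UpperHalfPlane CongruenceSubgroup ModularFormClass Module
open scoped MatrixGroups Manifold ModularForm

/-- the truncated `q`-expansion -/
def truncS (M m : ℕ) : CuspForm (Gamma0 M) 2 →ₗ[ℂ] (Fin m → ℂ) where
  toFun f i := qCoeff f (i + 1)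
  map_add' f g := by
    funext i
    exact S49.qCoeff_add f g _
  map_smul' c f := by
    funext i
    exact S49.qCoeff_smul c f _

@[simp] theorem truncS_apply (M m : ℕ) (f : CuspForm (Gamma0 M) 2) (i : Fin m) :
    truncS M m f i = qCoeff f (i + 1) := rfl

theorem exists_truncS_injective (M : ℕ) [NeZero M] :
    ∃ D : ℕ, ∀ m ≥ D, Function.Injective (truncS M m) := by
  obtain ⟨D, hD⟩ := fStab M
  refine ⟨D, fun m hm => ?_⟩
  rw [injective_iff_map_eq_zero]
  intro f hf
  apply S49.eq_zero_of_qCoeff
  intro n
  have h := hD f ⊥ (fun n hn => ?_) n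
  · exact AddSubgroup.mem_bot.1 h
  · rw [AddSubgroup.mem_bot]
    rcases Nat.eq_zero_or_pos n with rfl | hpos
    · exact S49.qCoeff_zero_index f
    · have h1 := congrFun hf ⟨n - 1, by omega⟩
      rw [truncS_apply] at h1
      have h2 : n - 1 + 1 = n := by omega
      simpa only [h2, Pi.zero_apply] using h1

end Fermat.Agent.S44.F

end
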