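/-
S44 / F / Dim (sub-architect helper102).  **(DIM)**: for `m` large, a vector `y ∈ ℚ̄^m` orthogonal to the
principal parts of `L(m ∞)` is the beginning of the `q`-expansion of a cusp form of weight two.
-/
import Fermat.Agent.S44.F.Dim.Bridge.Main
import Fermat.Agent.S44.F.Dim.Genus
import Fermat.Agent.S44.F.Dim.LinAlg
import Fermat.Agent.S44.F.Dim.Rank
import Fermat.Agent.S44.F.Dim.Trunc
import Fermat.Agent.S44.F.Dual.NodesA

set_option autoImplicit false

noncomputable section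

namespace Fermat.Agent.S44.F

open ModularCurve AlgebraicCurve Fermat.Agent.S24 Fermat.Agent.S24.B Fermat.Agent.S24.FF
  Fermat.Agent.S27.Riemann Fermat.Agent.GAL Fermat.Agent.GAL.GenusBridge
open UpperHalfPlane CongruenceSubgroup ModularFormClass Module
open scoped MatrixGroups Manifold ModularForm

/-- reindexing of a sum over `1 ≤ n ≤ m` -/
theorem sum_Icc_eq_sum_fin {R : Type*} [AddCommMonoid R] (m : ℕ) (F : ℕ → R) :
    ∑ n ∈ Finset.Icc 1 m, F n = ∑ i : Fin m, F (i + 1) := by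
  rw [Fin.sum_univ_eq_sum_range (fun i => F (i + 1)) m, Finset.range_eq_Ico,
    Finset.sum_Ico_add' F 0 m 1]
  congr 1

theorem dim_main (M : ℕ) [NeZero M] : ∃ D0 : ℕ, ∀ m ≥ D0, ∀ y : Fin m → Kbar,
    (∀ x ∈ (Linf M m).map (PP M m), ∑ i, x i * y i = 0) →
      ∃ f : CuspForm (Gamma0 M) 2, ∀ i : Fin m, qCoeff f (i + 1) = iota (y i) := by
  obtain ⟨D, hD⟩ := exists_truncS_injective M
  refine ⟨D, fun m hm y hy => ?_⟩
  have : FiniteDimensional ℂ (CuspForm (Gamma0 M) 2) := S49.finiteDimensional_cuspForm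
  have hU : finrank ℂ (LinearMap.range (truncS M m)) = finrank ℂ (CuspForm (Gamma0 M) 2) :=
    LinearMap.finrank_range_of_inj (hD m hm)
  have hmem := perp_mem iota ((Linf M m).map (PP M m)) (LinearMap.range (truncS M m)) ?_ ?_ y hy
  · obtain ⟨f, hf⟩ := hmem
    exact ⟨f, fun i => congrFun hf i⟩
  · rintro x ⟨b, hb, rfl⟩ u ⟨g, rfl⟩
    have := pp_orthogonal b hb g
    rw [sum_Icc_eq_sum_fin] at this
    rw [← this]
    refine Finset.sum_congr rfl fun i _ => ?_
    show iota ((b : LaurentSeries Kbar).coeff (-((i : ℤ) + 1))) * qCoeff g (i + 1) = _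
    push_cast
    rfl
  · rw [Fintype.card_fin, hU]
    have h1 := finrank_map_PP_ge M m
    have h2 := Dim.genusFF_le_finrank M
    omega

/-- **DDim**. -/
theorem dDim : DDim := by
  intro M _
  obtain ⟨D0, h⟩ := dim_main M
  refine ⟨D0, fun m hm y hy => h m hm y ?_⟩
  rintro x ⟨b, hb, rfl⟩
  exact hy b hb

end Fermat.Agent.S44.F

end
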